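import Mathlib
import Fermat.Prelude.Def_EllipticCurve_FrobeniusTrace

/-!
# S58 / [FROB-ASM]: a Frobenius element acts on the residue field as `x ↦ x ^ ℓ`
-/

set_option autoImplicit false

namespace Fermat.Agent.S58

open IsLocalRing

variable {K L : Type*} [Field K] [Field L] [Algebra K L] {A : ValuationSubring L}

theorem s58fa_mem_of_decomp {τ : L ≃ₐ[K] L} (hτ : τ ∈ A.decompositionSubgroup K) {x : L}
    (hx : x ∈ A) : τ x ∈ A :=
  ((⟨τ, hτ⟩ : A.decompositionSubgroup K) • (⟨x, hx⟩ : A)).2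

theorem s58fa_not_mem_of_decomp {τ : L ≃ₐ[K] L} (hτ : τ ∈ A.decompositionSubgroup K) {x : L}
    (hx : x ∉ A) : τ x ∉ A := by
  intro h
  apply hx
  have := s58fa_mem_of_decomp ((A.decompositionSubgroup K).inv_mem hτ) h
  rwa [AlgEquiv.aut_inv, AlgEquiv.symm_apply_apply] at this

variable {σ : L ≃ₐ[K] L} {ℓ : ℕ}

theorem s58fa_mem (h : A.IsFrobeniusAt σ ℓ) {x : L} (hx : x ∈ A) : σ x ∈ A :=
  s58fa_mem_of_decomp h.mem_decompositionSubgroup hx

theorem s58fa_not_mem (h : A.IsFrobeniusAt σ ℓ) {x : L} (hx : x ∉ A) : σ x ∉ A :=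
  s58fa_not_mem_of_decomp h.mem_decompositionSubgroup hx

/-- A Frobenius element at `A` induces `x ↦ x ^ ℓ` on the residue field. -/
theorem s58fa_residue (h : A.IsFrobeniusAt σ ℓ) {x : L} (hx : x ∈ A) :
    residue A ⟨σ x, s58fa_mem h hx⟩ = (residue A ⟨x, hx⟩) ^ ℓ := by
  have h1 := h.smul_residue_eq (residue A ⟨x, hx⟩)
  rw [← IsLocalRing.ResidueField.residue_smul] at h1
  exact h1

end Fermat.Agent.S58
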