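import Mathlib
import Fermat.Agent.S58.Seams
import Fermat.Agent.S58.Red.Hom
import Fermat.Agent.S58.Fun.Act
import Fermat.Agent.S58.Frob.Residue
import Fermat.Agent.S05.Unfold

/-!
# S58 / [FROB-ASM]: reduction at a good prime intertwines a Frobenius element with Frobenius
-/

set_option autoImplicit false
set_option linter.unusedSectionVars false

namespace Fermat.Agent.S58

open WeierstrassCurve WeierstrassCurve.Affine IsLocalRing

variable (W0 : WeierstrassCurve ℤ) (ℓ : ℕ) [Fact ℓ.Prime] (A : ValuationSubring s58_Qb)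
  [Algebra (ZMod ℓ) (ResidueField A)] [DecidableEq (ResidueField A)]

/-- The model over `A` of the curve and of its reduction. -/
theorem s58fa_model :
    s58r_Model A ((s58_WQ W0)⁄s58_Qb) ((W0.reductionMod ℓ)⁄(ResidueField A)) := by
  refine ⟨W0.map (Int.castRingHom A), ?_, ?_⟩
  · show (W0.map (Int.castRingHom A)).map A.subtype =
      (W0.map (Int.castRingHom ℚ)).map (algebraMap ℚ s58_Qb)
    rw [WeierstrassCurve.map_map, WeierstrassCurve.map_map]
    congr 1
  · show (W0.map (Int.castRingHom A)).map (residue A) =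
      (W0.map (Int.castRingHom (ZMod ℓ))).map (algebraMap (ZMod ℓ) (ResidueField A))
    rw [WeierstrassCurve.map_map, WeierstrassCurve.map_map]
    congr 1
    exact RingHom.ext_int _ _

/-- Frobenius on an affine point, over any field. -/
theorem s58fa_frob_some (W' : WeierstrassCurve (ZMod ℓ)) {L : Type*} [Field L] [DecidableEq L]
    [Algebra (ZMod ℓ) L] {u v : L} (h : (W'⁄L).Nonsingular u v) :
    ∃ h', s58f_frob ℓ W' L (Point.some u v h) = Point.some (u ^ ℓ) (v ^ ℓ) h' := by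
  have h1 : ∀ z : L, FiniteField.frobeniusAlgHom (ZMod ℓ) L z = z ^ ℓ := by
    intro z
    simp [ZMod.card]
  obtain ⟨hns, he⟩ : ∃ hns, s58f_frob ℓ W' L (Point.some u v h) =
      Point.some (FiniteField.frobeniusAlgHom (ZMod ℓ) L u)
        (FiniteField.frobeniusAlgHom (ZMod ℓ) L v) hns :=
    ⟨_, Point.map_some (W' := W') (FiniteField.frobeniusAlgHom (ZMod ℓ) L) h⟩
  rw [he]
  clear he
  revert hns
  rw [h1, h1]
  intro hns
  exact ⟨hns, rfl⟩

variable {W0 ℓ A}

/-- **Equivariance**: if `P` reduces to `R` then `σ • P` reduces to `Frob R`. -/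
theorem s58fa_redTo_smul {σ : s58_G} (hσ : A.IsFrobeniusAt σ ℓ) {P : s58_E W0}
    {R : ((W0.reductionMod ℓ)⁄(ResidueField A)).Point} (h : s58r_RedTo A P R) :
    s58r_RedTo A (σ • P) (s58f_frob ℓ (W0.reductionMod ℓ) (ResidueField A) R) := by
  cases h with
  | zero =>
    have h0 : σ • (0 : s58_E W0) = 0 := rfl
    rw [h0, map_zero]
    exact s58r_RedTo.zero
  | inf h₁ hx =>
    rw [Fermat.Agent.S05.smul_some, map_zero]
    exact s58r_RedTo.inf _ (s58fa_not_mem hσ hx)
  | aff a b h₁ h₁' =>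
    rw [Fermat.Agent.S05.smul_some]
    obtain ⟨h', he⟩ := s58fa_frob_some ℓ (W0.reductionMod ℓ) h₁'
    rw [he]
    have ea : residue A a ^ ℓ = residue A ⟨σ (a : s58_Qb), s58fa_mem hσ a.2⟩ :=
      (s58fa_residue hσ a.2).symm
    have eb : residue A b ^ ℓ = residue A ⟨σ (b : s58_Qb), s58fa_mem hσ b.2⟩ :=
      (s58fa_residue hσ b.2).symm
    have hn : ((W0.reductionMod ℓ)⁄(ResidueField A)).Nonsingular
        (residue A ⟨σ (a : s58_Qb), s58fa_mem hσ a.2⟩)
        (residue A ⟨σ (b : s58_Qb), s58fa_mem hσ b.2⟩) := by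
      rw [← ea, ← eb]; exact h'
    rw [s58r_some_congr ea eb h' hn]
    exact s58r_RedTo.aff ⟨σ (a : s58_Qb), s58fa_mem hσ a.2⟩ ⟨σ (b : s58_Qb), s58fa_mem hσ b.2⟩ _ hn

end Fermat.Agent.S58
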