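import Mathlib
import Fermat.Agent.S58.Frob.Equiv
import Fermat.Agent.S58.Fun.Trace
import Fermat.Agent.JT3.S18.ConstRed
import Fermat.Agent.S05.IntVal

/-!
# S58 / [FROB-ASM]: the Eichler–Shimura relation on prime-to-`ℓ` torsion of `W(ℚ̄)`

`s58fa_frob_relation`: `σ² P - a_ℓ σ P + ℓ P = 0`, from the trace relation on the reduction
(`s58f_trace`), the equivariance of the reduction (`s58fa_redTo_smul`) and its injectivity on
prime-to-`ℓ` torsion.  The point count `N(X - 1) = #W'(𝔽_ℓ)` ([KL-COUNT]) is a hypothesis here.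
-/

set_option autoImplicit false
set_option linter.unusedSectionVars false
set_option linter.style.haveILetI false

namespace Fermat.Agent.S58

open WeierstrassCurve WeierstrassCurve.Affine IsLocalRing Polynomial

section good

variable {W0 : WeierstrassCurve ℤ} {ℓ : ℕ} [Fact ℓ.Prime] {A : ValuationSubring s58_Qb}
  [Algebra (ZMod ℓ) (ResidueField A)] [DecidableEq (ResidueField A)]
  [(W0.reductionMod ℓ).IsElliptic]

theorem s58fa_Δ_ne_zero : ((W0.reductionMod ℓ)⁄(ResidueField A)).Δ ≠ 0 :=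
  ((W0.reductionMod ℓ)⁄(ResidueField A)).isUnit_Δ.ne_zero

theorem s58fa_mem_E0 (P : s58_E W0) : P ∈ s58r_E0 (s58fa_model W0 ℓ A) :=
  s58r_mem_E0_of_good (s58fa_model W0 ℓ A) s58fa_Δ_ne_zero P

variable (W0 ℓ A) in
/-- The reduction homomorphism at a good prime, defined on all of `W(ℚ̄)`. -/
noncomputable def s58fa_red : s58_E W0 →+ ((W0.reductionMod ℓ)⁄(ResidueField A)).Point :=
  (s58r_red (s58fa_model W0 ℓ A)).comp
    (AddMonoidHom.codRestrict (AddMonoidHom.id (s58_E W0)) (s58r_E0 (s58fa_model W0 ℓ A))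
      s58fa_mem_E0)

theorem s58fa_red_spec (P : s58_E W0) : s58r_RedTo A P (s58fa_red W0 ℓ A P) :=
  s58r_red_spec (s58fa_model W0 ℓ A) ⟨P, s58fa_mem_E0 P⟩

theorem s58fa_red_smul {σ : s58_G} (hσ : A.IsFrobeniusAt σ ℓ) (P : s58_E W0) :
    s58fa_red W0 ℓ A (σ • P) =
      s58f_frob ℓ (W0.reductionMod ℓ) (ResidueField A) (s58fa_red W0 ℓ A P) :=
  s58r_redTo_unique (s58fa_red_spec (σ • P)) (s58fa_redTo_smul hσ (s58fa_red_spec P))

theorem s58fa_red_injective {m : ℕ} (hm : A.valuation (m : s58_Qb) = 1) {T : s58_E W0}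
    (hT : m • T = 0) (h0 : s58fa_red W0 ℓ A T = 0) : T = 0 := by
  have := s58r_red_injective_on_torsion (s58fa_model W0 ℓ A) hm
    (P := ⟨T, s58fa_mem_E0 T⟩) hT h0
  exact congrArg Subtype.val this

end good

theorem s58fa_smul_nsmul (σ : s58_G) {W0 : WeierstrassCurve ℤ} (m : ℕ) (P : s58_E W0) :
    m • (σ • P) = σ • (m • P) :=
  (map_nsmul (DistribSMul.toAddMonoidHom (s58_E W0) σ) m P).symm

/-- **(S-FROB)** modulo the point count. -/
theorem s58fa_frob_relation (W0 : WeierstrassCurve ℤ) (ℓ : ℕ) (hℓ : ℓ.Prime)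
    (hΔ : ¬ (ℓ : ℤ) ∣ W0.Δ) (A : ValuationSubring s58_Qb) (hA : A.LiesOverPrime ℓ)
    (σ : s58_G) (hσ : A.IsFrobeniusAt σ ℓ)
    (hcount : ∀ [Fact ℓ.Prime] [Algebra (ZMod ℓ) (ResidueField A)]
      [(W0.reductionMod ℓ).IsElliptic],
      s58f_N ℓ (W0.reductionMod ℓ) (ResidueField A) (X - 1) =
        Nat.card (W0.reductionMod ℓ).toAffine.Point)
    (m : ℕ) (P : s58_E W0) (hm : m.Coprime ℓ) (hP : m • P = 0) :
    σ • σ • P - W0.apOfModel ℓ • (σ • P) + (ℓ : ℤ) • P = 0 := by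
  haveI : Fact ℓ.Prime := ⟨hℓ⟩
  haveI : CharP (ResidueField A) ℓ := Fermat.Agent.JT3.jcr_charP A hA
  letI : Algebra (ZMod ℓ) (ResidueField A) := ZMod.algebra (ResidueField A) ℓ
  letI : DecidableEq (ResidueField A) := Classical.decEq _
  haveI : IsAlgClosed (ResidueField A) := Fermat.Agent.JT3.jcr_isAlgClosed A
  haveI : (W0.reductionMod ℓ).IsElliptic := by
    refine ⟨isUnit_iff_ne_zero.mpr ?_⟩
    show (W0.map (Int.castRingHom (ZMod ℓ))).Δ ≠ 0
    rw [WeierstrassCurve.map_Δ]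
    intro h0
    exact hΔ ((ZMod.intCast_zmod_eq_zero_iff_dvd W0.Δ ℓ).mp h0)
  have hval : A.valuation (m : s58_Qb) = 1 := by
    have := Fermat.Agent.S05.intVal_eq_one_of_not_dvd A hA hℓ (n := (m : ℤ)) ?_
    · simpa using this
    · intro hd
      have h1 : ℓ ∣ m := by exact_mod_cast hd
      have h2 : ℓ ∣ Nat.gcd m ℓ := Nat.dvd_gcd h1 dvd_rfl
      rw [hm] at h2
      exact hℓ.one_lt.ne' (Nat.dvd_one.mp h2)
  have hap : W0.apOfModel ℓ = s58f_t ℓ (W0.reductionMod ℓ) (ResidueField A) := by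
    unfold s58f_t WeierstrassCurve.apOfModel WeierstrassCurve.traceOfFrobenius
      WeierstrassCurve.card
    rw [hcount, Nat.card_zmod]
  apply s58fa_red_injective (ℓ := ℓ) hval
  · have h1 : m • (σ • P) = 0 := by
      rw [s58fa_smul_nsmul, hP]; rfl
    have h2 : m • (σ • σ • P) = 0 := by
      rw [s58fa_smul_nsmul, h1]; rfl
    rw [nsmul_add, nsmul_sub, h2, smul_comm m (W0.apOfModel ℓ), h1, smul_comm m (ℓ : ℤ), hP,
      zsmul_zero, zsmul_zero, sub_zero, add_zero]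
  · rw [map_add, map_sub, map_zsmul, map_zsmul, s58fa_red_smul hσ, s58fa_red_smul hσ, hap]
    exact s58f_trace ℓ (W0.reductionMod ℓ) (ResidueField A) _

/-- The output of [KL-COUNT] in the form used here: `N(X - 1) = #W'(𝔽_ℓ)`. -/
def s58fa_CountHyp : Prop :=
  ∀ (ℓ : ℕ) [Fact ℓ.Prime] (W' : WeierstrassCurve (ZMod ℓ)) [W'.IsElliptic]
    (k : Type) [Field k] [Algebra (ZMod ℓ) k],
    s58f_N ℓ W' k (X - 1) = Nat.card W'.toAffine.Point

/-- **(S-FROB)** from the point count. -/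
theorem s58fa_frobSeam_of_count (h : s58fa_CountHyp) : s58_FrobSeam := by
  intro W0 ℓ hℓ hΔ A hA σ hσ m P hm hP
  exact s58fa_frob_relation W0 ℓ hℓ hΔ A hA σ hσ (h ℓ _ _) m P hm hP

end Fermat.Agent.S58
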