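import Mathlib
import Fermat.Agent.S58.Frob.Main
import Fermat.Agent.S58.Count.Main

/-!
# S58 / [FROB-ASM]: the seam (S-FROB) as a closed term

`s58fa_frobSeam : s58_FrobSeam`, from `s58fa_frobSeam_of_count` (helper7) and the point count
`s58c_N_X_sub_one` (helper18).
-/

set_option autoImplicit false

namespace Fermat.Agent.S58

/-- The point count `N(X - 1) = #W'(𝔽_ℓ)`. -/
theorem s58fa_countHyp : s58fa_CountHyp :=
  fun ℓ _ W' _ k _ _ => s58c_N_X_sub_one ℓ W' k

/-- **(S-FROB)**: the Eichler–Shimura relation for `W` at a good prime, on prime-to-`ℓ` torsion. -/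
theorem s58fa_frobSeam : s58_FrobSeam :=
  s58fa_frobSeam_of_count s58fa_countHyp

end Fermat.Agent.S58
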